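import Fermat.Agent.DigitComplexity.Repetitions
import Mathlib.Algebra.ContinuedFractions.Computation.TerminatesIffRat
import Mathlib.Algebra.ContinuedFractions.Computation.CorrectnessTerminating

/-!
# Pourchet's theorem

The continued fraction of the powers of a rational number `a / b`, where `a, b ≥ 2` are coprime,
grows in length without bound. If the length is at most `h` for infinitely many exponents, two
consecutive denominators `q < q'` of convergents of each are far apart, and the subspace theorem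
with the places `a`, `b` applies to the vector `(q * a ^ n, p * b ^ n)` (Corvaja and Zannier).
-/

set_option autoImplicit false

noncomputable section

namespace FA.Pourchet

open GenContFract Matrix FA.Perfect FA.Subspace

theorem exists_int_contsAux (v : ℚ) (n : ℕ) :
    ∃ p q : ℤ, (GenContFract.of v).contsAux n = ⟨(p : ℚ), (q : ℚ)⟩ := by
  induction n using Nat.twoStepInduction with
  | zero => exact ⟨1, 0, by simp [contsAux]⟩
  | one => exact ⟨⌊v⌋, 1, by simp [contsAux, GenContFract.of_h_eq_floor]⟩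
  | more n ih₁ ih₂ =>
    obtain ⟨p, q, h₁⟩ := ih₁
    obtain ⟨p', q', h₂⟩ := ih₂
    rcases hs : (GenContFract.of v).s.get? n with _ | gp
    · exact ⟨p', q', by rw [contsAux_stable_of_terminated (n + 1).le_succ hs, h₂]⟩
    · obtain ⟨ha, z, hz⟩ := of_partNum_eq_one_and_exists_int_partDen_eq hs
      refine ⟨z * p' + p, z * q' + q, ?_⟩
      rw [contsAux_recurrence hs h₁ h₂, ha, hz]
      simp

theorem exists_int_conv (v : ℚ) (n : ℕ) : ∃ p q : ℤ, 0 < q ∧
    (GenContFract.of v).dens n = q ∧ (GenContFract.of v).convs n = (p : ℚ) / q := by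
  obtain ⟨p, q, h⟩ := exists_int_contsAux v (n + 1)
  have hd : (GenContFract.of v).dens n = q := by
    rw [den_eq_conts_b, nth_cont_eq_succ_nth_contAux, h]
  have h1 : (1 : ℚ) ≤ (GenContFract.of v).dens n :=
    Nat.rec (le_of_eq zeroth_den_eq_one.symm) (fun k ih => ih.trans of_den_mono) n
  refine ⟨p, q, ?_, hd, ?_⟩
  · rw [hd] at h1
    exact_mod_cast lt_of_lt_of_le one_pos h1
  · rw [conv_eq_num_div_den, hd, num_eq_conts_a, nth_cont_eq_succ_nth_contAux, h]

/-- Two consecutive denominators far apart, if the expansion is short. -/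
theorem exists_jump {A B h M : ℕ} (hB : 2 ≤ B) (hcop : A.Coprime B) (hM : h < M)
    (hterm : (GenContFract.of ((A : ℚ) / B)).TerminatedAt h) :
    ∃ i, i < h ∧ ∃ P Q Q' : ℤ, 0 < Q ∧ 0 < Q' ∧ Q ^ M ≤ (B : ℤ) ^ (M - (h + 1) + i) ∧
      (B : ℤ) ^ (M - (h + 1) + i + 1) < Q' ^ M ∧ |Q * A - P * B| * Q' ≤ B := by
  set v : ℚ := (A : ℚ) / B
  choose p q hq hd hc using exists_int_conv v
  have hB0 : (B : ℚ) ≠ 0 := by positivity
  have hfull : ∀ i, (GenContFract.of v).TerminatedAt i → (B : ℤ) ≤ q i := fun i hi => by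
    have h1 := of_correctness_of_terminatedAt hi
    rw [hc, div_eq_div_iff hB0 (Int.cast_ne_zero.2 (hq i).ne')] at h1
    have h2 : (A : ℤ) * q i = p i * B := by exact_mod_cast h1
    have h3 : (B : ℤ) ∣ q i := Int.dvd_of_dvd_mul_right_of_gcd_one (b := (A : ℤ))
      ⟨p i, by rw [h2, mul_comm]⟩ (by simpa [Int.gcd_natCast_natCast, Nat.coprime_comm] using hcop)
    exact Int.le_of_dvd (hq i) h3
  have hbig : ∀ j, j ≤ h → (B : ℤ) ≤ q j → ¬ q j ^ M ≤ (B : ℤ) ^ (M - (h + 1) + j) :=
    fun j hj hBj hle => absurd ((pow_le_pow_left₀ (Int.natCast_nonneg B) hBj M).trans hle)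
      (not_le.2 (pow_lt_pow_right₀ (by exact_mod_cast hB) (by omega)))
  classical
  set i := Nat.findGreatest (fun j => q j ^ M ≤ (B : ℤ) ^ (M - (h + 1) + j)) h
  have hi : q i ^ M ≤ (B : ℤ) ^ (M - (h + 1) + i) := by
    refine Nat.findGreatest_spec (P := fun j => q j ^ M ≤ (B : ℤ) ^ (M - (h + 1) + j))
      (Nat.zero_le _) ?_
    have h0 : q 0 = 1 := by
      have := hd 0
      rw [zeroth_den_eq_one] at this
      exact_mod_cast this.symm
    rw [h0, one_pow]
    exact one_le_pow₀ (by exact_mod_cast (one_le_two.trans hB))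
  have hih : i < h := (Nat.findGreatest_le h).lt_of_ne fun e =>
    hbig h le_rfl (hfull h hterm) (e ▸ hi)
  refine ⟨i, hih, p i, q i, q (i + 1), hq i, hq (i + 1), hi, not_le.1 (Nat.findGreatest_is_greatest
    (P := fun j => q j ^ M ≤ (B : ℤ) ^ (M - (h + 1) + j)) (Nat.lt_succ_self i) hih), ?_⟩
  have h1 := abs_sub_convs_le (v := v) fun ht => hbig i hih.le (hfull i ht) hi
  rw [hc, hd, hd] at h1
  have hq0 : (0 : ℚ) < q i := Int.cast_pos.2 (hq i)
  have hq1 : (0 : ℚ) < q (i + 1) := Int.cast_pos.2 (hq (i + 1))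
  have hBp : (0 : ℚ) < B := by positivity
  rw [show v - (p i : ℚ) / q i = ((q i : ℚ) * A - p i * B) / (q i * B) by
    simp only [v]; field_simp, abs_div, abs_of_pos (mul_pos hq0 hBp),
    div_le_div_iff₀ (mul_pos hq0 hBp) (mul_pos hq0 hq1), one_mul] at h1
  have h2 : |(q i : ℚ) * A - p i * B| * q (i + 1) ≤ B :=
    le_of_mul_le_mul_left (by linarith) hq0
  exact_mod_cast h2

/-- **Pourchet's theorem**, for coprime natural numbers. -/
theorem finite_terminatedAt {a b : ℕ} (ha : 2 ≤ a) (hb : 2 ≤ b) (hab : a.Coprime b) (h : ℕ) :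
    {n : ℕ | (GenContFract.of (((a : ℚ) / b) ^ n)).TerminatedAt h}.Finite := by
  by_contra hinf
  set M := b * (h + 1) with hM_def
  have hM : h < M := lt_of_lt_of_le (Nat.lt_succ_self h) (Nat.le_mul_of_pos_left _ (by omega))
  set E := {n : ℕ | (GenContFract.of (((a : ℚ) / b) ^ n)).TerminatedAt h ∧ 1 ≤ n}
  have hE : E.Infinite := fun hf => hinf ((hf.union (Set.finite_singleton 0)).subset fun n hn =>
    (Nat.eq_zero_or_pos n).elim (fun e => Or.inr e) fun e => Or.inl ⟨hn, e⟩)
  choose! i hi P Q Q' hQ hQpos hQi hQ' hdist using fun n (hn : n ∈ E) =>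
    exists_jump (A := a ^ n) (B := b ^ n) (h := h) (M := M)
      (hb.trans (Nat.le_self_pow (by have := hn.2; omega) b)) (Nat.Coprime.pow n n hab) hM
      (by rw [Nat.cast_pow, Nat.cast_pow, ← div_pow]; exact hn.1)
  push_cast at hQi hQ' hdist
  let Pl : Places 2 2 :=
    { base := ![a, b]
      two_le := fun l => by fin_cases l <;> simp [ha, hb]
      coprime := fun l l' hl => by
        fin_cases l <;> fin_cases l' <;>
          first | exact absurd rfl hl | exact hab | exact hab.symm
      mat := fun _ => 1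
      isUnit_det := fun _ => by simp }
  set x : ℕ → Fin 2 → ℤ := fun n => ![Q n * (a : ℤ) ^ n, P n * (b : ℤ) ^ n]
  set ex : ℕ → Fin 2 → Fin 2 → ℕ := fun n l j => if l = j then n else 0
  have hvol : ∀ n, (Pl.vol (ex n) : ℝ) = (a : ℝ) ^ n * (b : ℝ) ^ n := fun n => by
    simp [Places.vol, ex, Pl, Fin.prod_univ_two]
  set L : Matrix (Fin 2) (Fin 2) ℝ := !![1, -1; 1, 0]
  have haR : (2 : ℝ) ≤ a := by exact_mod_cast ha
  have hbR : (2 : ℝ) ≤ b := by exact_mod_cast hb
  have hG : (1 : ℝ) < 2 * a * b := by nlinarith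
  have hlb : 0 < Real.log b := Real.log_pos (by linarith)
  have hlG : 0 < Real.log (2 * a * b) := Real.log_pos hG
  have hMR : (0 : ℝ) < M := Nat.cast_pos.2 (by omega)
  set δ := Real.log b / (M * Real.log (2 * a * b))
  have hδ : 0 < δ := by positivity
  obtain ⟨v, hv, hvE⟩ := DigitComplexity.exists_infinite_hyperplane le_rfl Pl (L := L)
    (by simp [L, det_fin_two])
    (fun l j => by fin_cases l <;> fin_cases j <;> simp [L, isAlgebraic_one, isAlgebraic_zero,
      (isAlgebraic_one (R := ℚ) (A := ℝ)).neg])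
    hδ hE x ex
    (fun n hn hx => (mul_pos (hQ n hn) (pow_pos (show (0 : ℤ) < a by omega) n)).ne'
      (congrFun hx 0))
    (fun n _ l j => by
      show (![a, b] l : ℤ) ^ ex n l j ∣ ((1 : Matrix (Fin 2) (Fin 2) ℤ) *ᵥ x n) j
      rw [one_mulVec]
      fin_cases l <;> fin_cases j <;> simp [x, ex])
    fun n hn => by
      set B : ℝ := (b : ℝ) ^ n
      set t : ℝ := |(Q n : ℝ) * (a : ℝ) ^ n - P n * B|
      have hB : 1 ≤ B := one_le_pow₀ (by linarith)
      have hA : (1 : ℝ) ≤ (a : ℝ) ^ n := one_le_pow₀ (by linarith)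
      have hq : (1 : ℝ) ≤ Q n := Int.cast_one_le_of_pos (hQ n hn)
      have h1 : (Q n : ℝ) ^ M ≤ B ^ (M - (h + 1) + i n) := by
        have := (Int.cast_le (R := ℝ)).2 (hQi n hn); push_cast at this; exact this
      have h2 : B ^ (M - (h + 1) + i n + 1) < (Q' n : ℝ) ^ M := by
        have := (Int.cast_lt (R := ℝ)).2 (hQ' n hn); push_cast at this; exact this
      have h3 : t * Q' n ≤ B := by
        have := (Int.cast_le (R := ℝ)).2 (hdist n hn); push_cast at this; exact this
      have hQB : (Q n : ℝ) ≤ B := le_of_pow_le_pow_left₀ (by omega) (by positivity)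
        (h1.trans (pow_le_pow_right₀ hB (by have := hi n hn; omega)))
      set X := ‖castVec (x n)‖
      have hx0 : castVec (x n) 0 = (Q n : ℝ) * (a : ℝ) ^ n := by simp [castVec, x]
      have hx1 : castVec (x n) 1 = (P n : ℝ) * B := by simp [castVec, x, B]
      have hX0 : 0 < X := norm_pos_iff.2 fun e => by
        have := congrFun e 0
        rw [hx0] at this
        nlinarith [mul_le_mul hq hA zero_le_one (by linarith : (0 : ℝ) ≤ Q n),
          show ((0 : Fin 2 → ℝ) 0) = 0 from rfl]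
      rw [hvol, Fin.prod_univ_two]
      have e0 : |∑ k, L 0 k * (x n k : ℝ)| = t := by
        rw [Fin.sum_univ_two]
        simp [L, x, t, B, sub_eq_add_neg]
      have e1 : |∑ k, L 1 k * (x n k : ℝ)| = (Q n : ℝ) * (a : ℝ) ^ n := by
        rw [Fin.sum_univ_two]
        simp [L, x, abs_of_pos (by positivity : (0 : ℝ) < (Q n : ℝ) * (a : ℝ) ^ n)]
      refine lt_of_eq_of_lt (congrArg₂ (· * ·) e0 e1) ?_
      rw [show t * ((Q n : ℝ) * (a : ℝ) ^ n) = (a : ℝ) ^ n * (t * Q n) by ring, mul_assoc]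
      refine mul_lt_mul_of_pos_left ?_ (by positivity)
      rcases (show 0 ≤ t from abs_nonneg _).eq_or_lt' with ht | hT
      · rw [ht, zero_mul]; positivity
      have h4 : (t * Q n) ^ M * B < B ^ M := by
        calc (t * Q n) ^ M * B ≤ t ^ M * B ^ (M - (h + 1) + i n + 1) := by
              rw [mul_pow, pow_succ, mul_assoc]
              gcongr
          _ < t ^ M * (Q' n : ℝ) ^ M := mul_lt_mul_of_pos_left h2 (pow_pos hT M)
          _ ≤ B ^ M := by
              rw [← mul_pow]
              exact pow_le_pow_left₀ (mul_nonneg hT.le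
                (Int.cast_nonneg (hQpos n hn).le)) h3 M
      have h5 := Real.log_lt_log (by positivity) h4
      rw [Real.log_mul (by positivity) (by positivity), Real.log_pow, Real.log_pow,
        Real.log_pow] at h5
      have hXG : X ≤ (2 * a * b : ℝ) ^ n := (pi_norm_le_iff_of_nonneg (by positivity)).2 fun j => by
        have h6 : (Q n : ℝ) * (a : ℝ) ^ n ≤ (a : ℝ) ^ n * B := by nlinarith
        have h7 : (2 : ℝ) * ((a : ℝ) ^ n * B) ≤ (2 * a * b : ℝ) ^ n := by
          rw [mul_assoc (2 : ℝ), mul_pow, mul_pow]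
          exact mul_le_mul_of_nonneg_right (le_self_pow₀ one_le_two (by have := hn.2; omega))
            (by positivity)
        rw [Real.norm_eq_abs]
        fin_cases j
        · show |castVec (x n) 0| ≤ _
          rw [hx0, abs_of_pos (by positivity)]
          nlinarith
        · show |castVec (x n) 1| ≤ _
          rw [hx1]
          have h8 := abs_sub_abs_le_abs_sub ((P n : ℝ) * B) ((Q n : ℝ) * (a : ℝ) ^ n)
          rw [abs_sub_comm _ ((Q n : ℝ) * (a : ℝ) ^ n),
            abs_of_pos (by positivity : (0 : ℝ) < (Q n : ℝ) * (a : ℝ) ^ n)] at h8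
          have h9 : t ≤ B := le_trans (le_mul_of_one_le_right (abs_nonneg _) (Int.cast_one_le_of_pos (hQpos n hn))) h3
          nlinarith
      have h6 := Real.log_le_log hX0 hXG
      rw [Real.log_pow] at h6
      rw [← Real.log_lt_log_iff (by positivity) (mul_pos (by positivity)
        (Real.rpow_pos_of_pos hX0 _)), Real.log_mul (by positivity)
        (Real.rpow_pos_of_pos hX0 _).ne', Real.log_pow, Real.log_rpow hX0]
      have h7 := mul_le_mul_of_nonneg_left h6 hδ.le
      have h8 : δ * (n * Real.log (2 * a * b)) * M = n * Real.log b := by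
        simp only [δ]; field_simp
      have h9 : Real.log B = n * Real.log b := Real.log_pow _ _
      nlinarith
  obtain ⟨n, ⟨hn, hvn⟩, hnv⟩ := hvE.exists_gt ((v 0).natAbs ^ M)
  replace hvn : v 0 * (Q n * (a : ℤ) ^ n) + v 1 * (P n * (b : ℤ) ^ n) = 0 :=
    (Fin.sum_univ_two (fun j => v j * x n j)).symm.trans hvn
  rcases eq_or_ne (v 0) 0 with h0 | h0
  · have hv1 : v 1 ≠ 0 := fun h1 => hv (funext fun j => by fin_cases j <;> assumption)
    have hP : P n = 0 := by
      simpa [h0, hv1, show b ≠ 0 by omega] using hvn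
    have h1 := hdist n hn
    rw [hP, zero_mul, sub_zero, abs_of_pos (mul_pos (hQ n hn) (by positivity))] at h1
    have h2 : (a : ℤ) ^ n * Q' n ≤ (b : ℤ) ^ n :=
      le_trans (mul_le_mul_of_nonneg_right (le_mul_of_one_le_left (by positivity) (hQ n hn))
        (hQpos n hn).le) h1
    have h3 := (mul_lt_mul_of_pos_left (hQ' n hn)
      (pow_pos (pow_pos (show (0 : ℤ) < a by omega) n) M)).trans_le
        ((mul_pow _ _ M).ge.trans (pow_le_pow_left₀ (mul_nonneg (by positivity) (hQpos n hn).le) h2 M))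
    have h4 : (b : ℤ) ^ h ≤ (a : ℤ) ^ M :=
      calc (b : ℤ) ^ h ≤ (b : ℤ) ^ (h + 1) := pow_le_pow_right₀ (by omega) (by omega)
        _ ≤ ((2 : ℤ) ^ b) ^ (h + 1) := pow_le_pow_left₀ (by omega)
            (by exact_mod_cast Nat.lt_two_pow_self.le) _
        _ ≤ (a : ℤ) ^ M := by
            rw [← pow_mul]; exact pow_le_pow_left₀ (by norm_num) (by exact_mod_cast ha) _
    refine absurd h3 (not_lt.2 ?_)
    calc ((b : ℤ) ^ n) ^ M = ((b : ℤ) ^ n) ^ h * ((b : ℤ) ^ n) ^ (M - h) := by
          rw [← pow_add, Nat.add_sub_cancel' hM.le]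
      _ ≤ ((a : ℤ) ^ n) ^ M * ((b : ℤ) ^ n) ^ (M - (h + 1) + i n + 1) :=
          mul_le_mul (by rw [pow_right_comm, pow_right_comm _ n M]
                         exact pow_le_pow_left₀ (by positivity) h4 n)
            (pow_le_pow_right₀ (one_le_pow₀ (by omega)) (by omega)) (by positivity) (by positivity)
  · have h1 : (b : ℤ) ^ n ∣ v 0 * Q n := Int.dvd_of_dvd_mul_right_of_gcd_one (b := (a : ℤ) ^ n)
      ⟨-(v 1 * P n), by linear_combination hvn⟩
      (by rw [← Nat.cast_pow, ← Nat.cast_pow, Int.gcd_natCast_natCast]; exact (Nat.Coprime.pow n n hab).symm)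
    have h2 : (b : ℤ) ^ n ≤ |v 0| * Q n := by
      have := Int.le_of_dvd (abs_pos.2 (mul_ne_zero h0 (hQ n hn).ne')) ((dvd_abs _ _).2 h1)
      rwa [abs_mul, abs_of_pos (hQ n hn)] at this
    have h3 : ((b : ℤ) ^ n) ^ (M - 1) * (b : ℤ) ^ n ≤ ((b : ℤ) ^ n) ^ (M - 1) * |v 0| ^ M := by
      rw [← pow_succ, Nat.sub_add_cancel (by omega)]
      refine (pow_le_pow_left₀ (by positivity) h2 M).trans ?_
      rw [mul_pow, mul_comm (_ ^ (M - 1))]
      refine mul_le_mul_of_nonneg_left ((hQi n hn).trans (pow_le_pow_right₀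
        (one_le_pow₀ (by omega)) ?_)) (by positivity)
      have := hi n hn; omega
    have h4 := le_of_mul_le_mul_left h3 (by positivity)
    rw [Int.abs_eq_natAbs] at h4
    have h5 : b ^ n ≤ (v 0).natAbs ^ M := by exact_mod_cast h4
    have := Nat.lt_pow_self (n := n) (a := b) (by omega)
    omega

end FA.Pourchet

end
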